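import Fermat.Agent.LittlewoodFF.Main

/-!
# The Lindelöf hypothesis for quadratic L-functions over `F_q[t]`

Inside the critical circle each factor `1 - w` is at most `(1 - r w) / √r`, and the logarithm of
the shrunk product is a series of the sums `S_n`.
-/

set_option autoImplicit false
set_option linter.style.openClassical false
set_option linter.style.haveILetI false
set_option linter.unusedSectionVars false

noncomputable section

open scoped Classical

namespace FA.LindelofFF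

open Polynomial KurlbergRudnick QuadraticLFF QuadraticRH HyperellipticWeil

variable {k : Type*} [Field k] [Fintype k] {D : k[X]} {g : ℕ}

/-- Shrinking a factor. -/
theorem sqrt_mul_norm_one_sub_le {w : ℂ} (hw : ‖w‖ ≤ 1) {r : ℝ} (hr : 0 ≤ r) (hr1 : r ≤ 1) :
    Real.sqrt r * ‖1 - w‖ ≤ ‖1 - (r : ℂ) * w‖ := by
  refine (pow_le_pow_iff_left₀ (by positivity) (norm_nonneg _) two_ne_zero).mp ?_
  have hm : Complex.normSq w ≤ 1 := by
    rw [← Complex.sq_norm]; exact pow_le_one₀ (norm_nonneg _) hw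
  rw [mul_pow, Real.sq_sqrt hr, Complex.sq_norm, Complex.sq_norm]
  have he : Complex.normSq (1 - (r : ℂ) * w) - r * Complex.normSq (1 - w) =
      (1 - r) * (1 - r * Complex.normSq w) := by
    simp only [Complex.normSq_apply, Complex.sub_re, Complex.sub_im, Complex.one_re, Complex.one_im,
      Complex.mul_re, Complex.mul_im, Complex.ofReal_re, Complex.ofReal_im]
    ring
  have h1 : 0 ≤ (1 - r) * (1 - r * Complex.normSq w) :=
    mul_nonneg (by linarith) (by nlinarith [Complex.normSq_nonneg w])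
  linarith

theorem prod_shrink (s : Multiset ℂ) {r : ℝ} (hr : 0 ≤ r) (hr1 : r ≤ 1) :
    (∀ w ∈ s, ‖w‖ ≤ 1) → Real.sqrt r ^ Multiset.card s * ‖(s.map fun w => 1 - w).prod‖ ≤
      ‖(s.map fun w => 1 - (r : ℂ) * w).prod‖ := by
  induction s using Multiset.induction with
  | empty => simp
  | cons a t ih =>
    intro h
    simp only [Multiset.card_cons, pow_succ, Multiset.map_cons, Multiset.prod_cons, norm_mul]
    refine le_of_eq_of_le (show _ = Real.sqrt r * ‖1 - a‖ *
      (Real.sqrt r ^ Multiset.card t * ‖(t.map fun w => 1 - w).prod‖) by ring) ?_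
    exact mul_le_mul (sqrt_mul_norm_one_sub_le (h a (Multiset.mem_cons_self a t)) hr hr1)
      (ih fun w hw => h w (Multiset.mem_cons_of_mem hw)) (by positivity) (norm_nonneg _)

variable (hk : ringChar k ≠ 2) (hD : D.Monic) (hsq : Squarefree D)
  (hdeg : D.natDegree = 2 * g + 1)
include hk hD hsq hdeg

/-- **The bound inside the critical circle.** -/
theorem norm_value_le {u : ℂ} (hu : ‖u‖ * Real.sqrt (Fintype.card k) ≤ 1) {r : ℝ} (hr : 0 < r)
    (hr1 : r < 1) (N : ℕ) :
    r ^ g * ‖∑ n ∈ Finset.range (2 * g + 1), (coeffL D n : ℂ) * u ^ n‖ ≤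
      Real.exp ((N + 1) * Real.sqrt (Fintype.card k) ^ N + 2 * g * (r ^ (N + 1) / (1 - r))) := by
  set q : ℝ := (Fintype.card k : ℝ) with hq
  set s := (lRoots D).map fun a => a * u with hs
  have hw : ∀ w ∈ s, ‖w‖ ≤ 1 := fun w hw => by
    obtain ⟨a, ha, rfl⟩ := Multiset.mem_map.mp hw
    rw [norm_mul, norm_lRoots_eq hk hD hsq hdeg ha, mul_comm]
    exact hu
  have hcard : Multiset.card s = 2 * g := by
    rw [hs, Multiset.card_map, card_lRoots hk hD hsq hdeg]
  have h1 := prod_shrink s hr.le hr1.le hw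
  rw [hcard, pow_mul, Real.sq_sqrt hr.le, hs, Multiset.map_map] at h1
  rw [sum_coeffL_mul_pow hk hD hsq hdeg]
  refine h1.trans ?_
  rw [← hs]
  have hlt : ∀ z ∈ s.map fun w => (r : ℂ) * w, ‖z‖ < 1 := fun z hz => by
    obtain ⟨w, hw', rfl⟩ := Multiset.mem_map.mp hz
    rw [norm_mul, Complex.norm_real, Real.norm_eq_abs, abs_of_pos hr]
    exact (mul_le_of_le_one_right hr.le (hw w hw')).trans_lt hr1
  have hsum := LittlewoodFF.hasSum_neg_log_norm_prod _ hlt
  rw [Multiset.map_map (g := fun z : ℂ => 1 - z) (f := fun w => (r : ℂ) * w)] at hsum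
  set P := ‖(s.map fun w => 1 - (r : ℂ) * w).prod‖ with hP
  change HasSum _ (-Real.log P) at hsum
  rcases (norm_nonneg _ : 0 ≤ P).eq_or_lt with h0 | hpos
  · rw [hP, ← h0]; exact (Real.exp_pos _).le
  rw [← Real.log_le_iff_le_exp hpos]
  set b : ℕ → ℝ := fun n =>
    if n ≤ N then Real.sqrt q ^ N else 2 * g * r ^ n with hb
  have htail : HasSum (fun m => b (m + (N + 1))) (2 * g * (r ^ (N + 1) / (1 - r))) := by
    rw [div_eq_mul_inv, ← mul_assoc]
    refine ((hasSum_geometric_of_lt_one hr.le hr1).mul_left _).congr_fun fun m => ?_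
    simp only [hb, if_neg (show ¬ m + (N + 1) ≤ N by omega)]
    ring
  have hB : HasSum b (2 * g * (r ^ (N + 1) / (1 - r)) + (N + 1) * Real.sqrt q ^ N) := by
    have h := (hasSum_nat_add_iff (f := b) (N + 1)).mp htail
    rwa [Finset.sum_congr rfl fun n hn => show b n = Real.sqrt q ^ N from
      if_pos (Nat.lt_succ_iff.mp (Finset.mem_range.mp hn)), Finset.sum_const, Finset.card_range,
      nsmul_eq_mul, Nat.cast_succ] at h
  have hq1 : 1 ≤ Real.sqrt q := by
    rw [hq]; exact Real.one_le_sqrt.mpr (Nat.one_le_cast.mpr Fintype.card_pos)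
  have hle : ∀ n : ℕ, -b n ≤ (((s.map fun w => (r : ℂ) * w).map (· ^ n)).sum / n).re := fun n => by
    refine (abs_le.mp (?_ : |(((s.map fun w => (r : ℂ) * w).map (· ^ n)).sum / n).re| ≤ b n)).1
    refine (Complex.abs_re_le_norm _).trans ?_
    rcases Nat.eq_zero_or_pos n with rfl | hn
    · simp only [Nat.cast_zero, div_zero, norm_zero, hb, if_pos (Nat.zero_le N)]
      positivity
    rw [hs, Multiset.map_map, Multiset.map_map, Multiset.map_congr rfl fun a _ => show
      ((((fun z : ℂ => z ^ n) ∘ fun w => (r : ℂ) * w) ∘ fun a => a * u) a) =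
        a ^ n * ((r : ℂ) * u) ^ n by simp only [Function.comp_apply, mul_pow]; ring,
      Multiset.sum_map_mul_right, show ((lRoots D).map fun a => a ^ n).sum = -(powSum D n : ℂ) by
        rw [powSum_eq_neg hk hD hsq (by omega) hn, neg_neg]]
    rw [norm_div, norm_mul, norm_neg, Complex.norm_intCast, norm_pow, norm_mul, Complex.norm_real,
      Real.norm_eq_abs, abs_of_pos hr, Complex.norm_natCast]
    have hn1 : (1 : ℝ) ≤ n := Nat.one_le_cast.mpr hn
    refine (div_le_self (by positivity) hn1).trans ?_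
    by_cases hnN : n ≤ N
    · simp only [hb, if_pos hnN]
      have h := LittlewoodFF.abs_powSum_le_pow D hn.ne'
      rw [← hq] at h
      calc |(powSum D n : ℝ)| * (r * ‖u‖) ^ n ≤ q ^ n * (1 * ‖u‖) ^ n := by gcongr
        _ = (Real.sqrt q * (‖u‖ * Real.sqrt q)) ^ n := by
          rw [← mul_pow]; congr 1
          linear_combination (norm := ring_nf) -‖u‖ * Real.mul_self_sqrt (show 0 ≤ q by positivity)
        _ ≤ (Real.sqrt q * 1) ^ n := by gcongr
        _ ≤ Real.sqrt q ^ N := by rw [mul_one]; exact pow_le_pow_right₀ hq1 hnN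
    · simp only [hb, if_neg hnN]
      have h := abs_powSum_le_sharp hk hD hsq (by omega) hn
      rw [hdeg, Nat.add_sub_cancel, ← hq] at h
      push_cast at h
      calc |(powSum D n : ℝ)| * (r * ‖u‖) ^ n
          ≤ 2 * g * Real.sqrt q ^ n * (r * ‖u‖) ^ n := by gcongr
        _ = 2 * g * r ^ n * (‖u‖ * Real.sqrt q) ^ n := by rw [mul_pow, mul_pow]; ring
        _ ≤ 2 * g * r ^ n := mul_le_of_le_one_right (by positivity)
              (pow_le_one₀ (by positivity) hu)
  have h := hasSum_le hle hB.neg hsum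
  linarith

/-- **A coefficient** is at most the largest value on a circle. -/
theorem norm_coeffL_mul_le {u : ℂ} {B : ℝ}
    (hB : ∀ z : ℂ, ‖z‖ = ‖u‖ →
      ‖∑ i ∈ Finset.range (2 * g + 1), (coeffL D i : ℂ) * z ^ i‖ ≤ B)
    {n : ℕ} (hn : n ≤ 2 * g) : ‖(coeffL D n : ℂ) * u ^ n‖ ≤ B := by
  set M := 2 * g + 1
  obtain ⟨ζ, hζ⟩ : ∃ ζ : ℂ, IsPrimitiveRoot ζ M :=
    ⟨_, Complex.isPrimitiveRoot_exp M (by omega)⟩
  have hn1 : ‖ζ‖ = 1 := hζ.norm'_eq_one (by omega)
  have hz0 : ζ ≠ 0 := hζ.ne_zero (by omega)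
  have key : (M : ℂ) * ((coeffL D n : ℂ) * u ^ n) = ∑ j ∈ Finset.range M,
      (∑ i ∈ Finset.range M, (coeffL D i : ℂ) * (ζ ^ j * u) ^ i) * ((ζ ^ n)⁻¹) ^ j := by
    simp only [Finset.sum_mul]
    rw [Finset.sum_comm, Finset.sum_eq_single_of_mem n (Finset.mem_range.mpr (by omega)) ?_]
    · rw [Finset.sum_congr rfl fun j _ => show
        (coeffL D n : ℂ) * (ζ ^ j * u) ^ n * ((ζ ^ n)⁻¹) ^ j = (coeffL D n : ℂ) * u ^ n by
          rw [inv_pow, mul_pow, ← pow_mul, ← pow_mul, mul_comm j n]; field_simp,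
        Finset.sum_const, Finset.card_range, nsmul_eq_mul]
    intro i hi hne
    have hx : ζ ^ i * (ζ ^ n)⁻¹ ≠ 1 := fun e => hne (hζ.pow_inj (Finset.mem_range.mp hi) (by omega)
      ((mul_inv_eq_one₀ (pow_ne_zero n hz0)).mp e))
    rw [Finset.sum_congr rfl fun j _ => show (coeffL D i : ℂ) * (ζ ^ j * u) ^ i * ((ζ ^ n)⁻¹) ^ j =
      (coeffL D i : ℂ) * u ^ i * (ζ ^ i * (ζ ^ n)⁻¹) ^ j by
        rw [mul_pow (ζ ^ j), mul_pow, ← pow_mul, ← pow_mul, mul_comm j i]; ring,
      ← Finset.mul_sum, geom_sum_eq hx, mul_pow, inv_pow, ← pow_mul, ← pow_mul, mul_comm i M,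
      mul_comm n M, pow_mul, pow_mul, hζ.pow_eq_one]
    simp
  have h := congrArg (‖·‖) key
  simp only [norm_mul _ ((coeffL D n : ℂ) * u ^ n), Complex.norm_natCast] at h
  refine le_of_mul_le_mul_left ?_ (Nat.cast_pos.mpr (show 0 < M by omega) : (0 : ℝ) < M)
  rw [h]
  refine (norm_sum_le _ _).trans ((Finset.sum_le_sum fun j _ => ?_).trans_eq
    (by rw [Finset.sum_const, Finset.card_range, nsmul_eq_mul]))
  rw [norm_mul, norm_pow, norm_inv, norm_pow, hn1, one_pow, inv_one, one_pow, mul_one]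
  exact hB _ (by rw [norm_mul, norm_pow, hn1, one_pow, one_mul])

end FA.LindelofFF
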